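import Fermat.Agent.F3.EigenChar.Defs

/-!
# Cluster L (S41, level raising): basic definitions

Architect: helper41.  Blueprint: `NOTES/blueprint-L-S41.md`.

For a prime `q ∤ N` we define the two degeneracy homomorphisms `Γ₀(N q) → Γ₀(N)`:
* `incl N q`  : the inclusion `γ ↦ γ`;
* `inclD N q` : `γ ↦ δ γ δ⁻¹`, `δ = diag(q, 1)`, i.e. `[a, b; c, d] ↦ [a, q b; c / q, d]`,
and the induced maps on homomorphisms `Hom(Γ₀(N), A) → Hom(Γ₀(N q), A)` (`resAll`, `resAllD`).
-/

set_option autoImplicit false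

noncomputable section

namespace Fermat.Agent.L

open CongruenceSubgroup Matrix.SpecialLinearGroup ModularCurve.Period
open scoped MatrixGroups

variable (N q : ℕ)

theorem dvd_of_mem_Gamma0 {M : ℕ} {γ : SL(2, ℤ)} (hγ : γ ∈ Gamma0 M) : (M : ℤ) ∣ γ 1 0 :=
  (ZMod.intCast_zmod_eq_zero_iff_dvd _ _).mp (Gamma0_mem.mp hγ)

theorem mem_Gamma0_of_dvd {M : ℕ} {γ : SL(2, ℤ)} (hγ : (M : ℤ) ∣ γ 1 0) : γ ∈ Gamma0 M :=
  Gamma0_mem.mpr ((ZMod.intCast_zmod_eq_zero_iff_dvd _ _).mpr hγ)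

theorem Gamma0_mul_le : Gamma0 (N * q) ≤ Gamma0 N := fun γ hγ =>
  mem_Gamma0_of_dvd (Dvd.dvd.trans (by push_cast; exact Dvd.intro _ rfl) (dvd_of_mem_Gamma0 hγ))

/-- The inclusion `Γ₀(N q) → Γ₀(N)`. -/
def incl : Gamma0 (N * q) →* Gamma0 N := Subgroup.inclusion (Gamma0_mul_le N q)

@[simp] theorem incl_coe (γ : Gamma0 (N * q)) : ((incl N q γ : Gamma0 N) : SL(2, ℤ)) = γ := rfl

/-- The matrix `δ γ δ⁻¹ = [a, q b; c / q, d]` for `γ = [a, b; c, d]`, `δ = diag(q, 1)`. -/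
def conjDMat (γ : SL(2, ℤ)) : Matrix (Fin 2) (Fin 2) ℤ :=
  !![γ 0 0, (q : ℤ) * γ 0 1; γ 1 0 / (q : ℤ), γ 1 1]

theorem det_conjDMat {γ : SL(2, ℤ)} (hγ : (q : ℤ) ∣ γ 1 0) : (conjDMat q γ).det = 1 := by
  obtain ⟨c, hc⟩ := hγ
  have hdet := γ.det_coe
  rw [Matrix.det_fin_two] at hdet
  rw [conjDMat, Matrix.det_fin_two_of, hc]
  rcases eq_or_ne (q : ℤ) 0 with h0 | h0
  · rw [h0] at hc ⊢
    rw [hc] at hdet
    simp at hdet ⊢
    linarith
  · rw [Int.mul_ediv_cancel_left _ h0]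
    rw [hc] at hdet
    linarith

/-- `δ γ δ⁻¹` as an element of `SL(2, ℤ)`, for `γ` with `q ∣ c`. -/
def conjDSL (γ : SL(2, ℤ)) (hγ : (q : ℤ) ∣ γ 1 0) : SL(2, ℤ) :=
  ⟨conjDMat q γ, det_conjDMat q hγ⟩

theorem q_dvd_of_mem [NeZero q] {γ : SL(2, ℤ)} (hγ : γ ∈ Gamma0 (N * q)) : (q : ℤ) ∣ γ 1 0 :=
  Dvd.dvd.trans (by push_cast; exact Dvd.intro_left _ rfl) (dvd_of_mem_Gamma0 hγ)

theorem conjDSL_mem [NeZero q] {γ : SL(2, ℤ)} (hγ : γ ∈ Gamma0 (N * q)) :
    conjDSL q γ (q_dvd_of_mem N q hγ) ∈ Gamma0 N := by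
  apply mem_Gamma0_of_dvd
  obtain ⟨c, hc⟩ := dvd_of_mem_Gamma0 hγ
  have hq : (q : ℤ) ≠ 0 := by exact_mod_cast NeZero.ne q
  show (N : ℤ) ∣ conjDMat q γ 1 0
  simp only [conjDMat, Matrix.of_apply, Matrix.cons_val', Matrix.cons_val_one, Matrix.cons_val_zero]
  rw [hc]
  push_cast
  rw [mul_comm (N : ℤ) (q : ℤ), mul_assoc, Int.mul_ediv_cancel_left _ hq]
  exact Dvd.intro _ rfl

theorem conjDMat_one [NeZero q] : conjDMat q (1 : SL(2, ℤ)) = 1 := by
  ext i j
  fin_cases i <;> fin_cases j <;> simp [conjDMat]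

theorem conjDMat_mul [NeZero q] {γ γ' : SL(2, ℤ)} (hγ : (q : ℤ) ∣ γ 1 0)
    (hγ' : (q : ℤ) ∣ γ' 1 0) : conjDMat q (γ * γ') = conjDMat q γ * conjDMat q γ' := by
  obtain ⟨c, hc⟩ := hγ
  obtain ⟨c', hc'⟩ := hγ'
  have hq : (q : ℤ) ≠ 0 := by exact_mod_cast NeZero.ne q
  have h10 : (γ * γ') 1 0 = (q : ℤ) * (c * γ' 0 0 + γ 1 1 * c') := by
    rw [Matrix.SpecialLinearGroup.coe_mul, Matrix.mul_apply, Fin.sum_univ_two, hc, hc']
    ring
  ext i j
  fin_cases i <;> fin_cases j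
  · simp only [conjDMat, Matrix.SpecialLinearGroup.coe_mul, Matrix.mul_apply, Fin.sum_univ_two,
      Fin.zero_eta, Fin.isValue, Matrix.of_apply, Matrix.cons_val', Matrix.cons_val_zero,
      Matrix.cons_val_one, hc', Int.mul_ediv_cancel_left _ hq]
    ring
  · simp only [conjDMat, Matrix.SpecialLinearGroup.coe_mul, Matrix.mul_apply, Fin.sum_univ_two,
      Fin.zero_eta, Fin.mk_one, Fin.isValue, Matrix.of_apply, Matrix.cons_val', Matrix.cons_val_zero,
      Matrix.cons_val_one]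
    ring
  · have h10' := h10
    rw [Matrix.SpecialLinearGroup.coe_mul] at h10'
    simp only [conjDMat, Matrix.SpecialLinearGroup.coe_mul, Fin.zero_eta, Fin.mk_one, Fin.isValue,
      Matrix.of_apply, Matrix.cons_val', Matrix.cons_val_zero, Matrix.cons_val_one, h10',
      Int.mul_ediv_cancel_left _ hq, Matrix.mul_apply, Fin.sum_univ_two, hc, hc']
  · simp only [conjDMat, Matrix.SpecialLinearGroup.coe_mul, Matrix.mul_apply, Fin.sum_univ_two,
      Fin.mk_one, Fin.isValue, Matrix.of_apply, Matrix.cons_val', Matrix.cons_val_zero,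
      Matrix.cons_val_one, hc, Int.mul_ediv_cancel_left _ hq]
    ring

/-- The second degeneracy homomorphism `Γ₀(N q) → Γ₀(N)`, `γ ↦ δ γ δ⁻¹`, `δ = diag(q, 1)`:
`[a, b; c, d] ↦ [a, q b; c / q, d]`. -/
def inclD [NeZero q] : Gamma0 (N * q) →* Gamma0 N where
  toFun γ := ⟨conjDSL q γ (q_dvd_of_mem N q γ.2), conjDSL_mem N q γ.2⟩
  map_one' := by
    apply Subtype.ext
    apply Subtype.ext
    exact conjDMat_one q
  map_mul' γ γ' := by
    apply Subtype.ext
    apply Subtype.ext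
    exact conjDMat_mul q (q_dvd_of_mem N q γ.2) (q_dvd_of_mem N q γ'.2)

theorem inclD_coe [NeZero q] (γ : Gamma0 (N * q)) :
    (((inclD N q γ : Gamma0 N) : SL(2, ℤ)) : Matrix (Fin 2) (Fin 2) ℤ) =
      conjDMat q (γ : SL(2, ℤ)) := rfl

theorem inclD_injective [NeZero q] : Function.Injective (inclD N q) := by
  intro γ γ' h
  have hq : (q : ℤ) ≠ 0 := by exact_mod_cast NeZero.ne q
  have h1 : conjDMat q (γ : SL(2, ℤ)) = conjDMat q (γ' : SL(2, ℤ)) := by
    rw [← inclD_coe, ← inclD_coe, h]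
  obtain ⟨c, hc⟩ := q_dvd_of_mem N q γ.2
  obtain ⟨c', hc'⟩ := q_dvd_of_mem N q γ'.2
  apply Subtype.ext
  apply Subtype.ext
  have e00 := congrFun (congrFun h1 0) 0
  have e01 := congrFun (congrFun h1 0) 1
  have e10 := congrFun (congrFun h1 1) 0
  have e11 := congrFun (congrFun h1 1) 1
  simp only [conjDMat, Fin.isValue, Matrix.of_apply, Matrix.cons_val', Matrix.cons_val_zero,
    Matrix.cons_val_one] at e00 e01 e10 e11
  rw [hc, hc', Int.mul_ediv_cancel_left _ hq, Int.mul_ediv_cancel_left _ hq] at e10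
  ext i j
  fin_cases i <;> fin_cases j
  · exact e00
  · exact mul_left_cancel₀ hq e01
  · show (γ : SL(2, ℤ)) 1 0 = (γ' : SL(2, ℤ)) 1 0
    rw [hc, hc', e10]
  · exact e11

theorem trace_inclD [NeZero q] (γ : Gamma0 (N * q)) :
    (((inclD N q γ : Gamma0 N) : SL(2, ℤ)) : Matrix (Fin 2) (Fin 2) ℤ).trace =
      ((γ : SL(2, ℤ)) : Matrix (Fin 2) (Fin 2) ℤ).trace := by
  rw [inclD_coe, Matrix.trace_fin_two, Matrix.trace_fin_two]
  simp [conjDMat]

section Res

variable (A : Type*) [AddCommGroup A]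

/-- Restriction `Hom(Γ₀(N), A) → Hom(Γ₀(N q), A)` along the inclusion. -/
def resAll : (Additive (Gamma0 N) →+ A) →+ (Additive (Gamma0 (N * q)) →+ A) where
  toFun c := c.comp (MonoidHom.toAdditive (incl N q))
  map_zero' := rfl
  map_add' _ _ := rfl

/-- Restriction `Hom(Γ₀(N), A) → Hom(Γ₀(N q), A)` along `γ ↦ δ γ δ⁻¹`. -/
def resAllD [NeZero q] : (Additive (Gamma0 N) →+ A) →+ (Additive (Gamma0 (N * q)) →+ A) where
  toFun c := c.comp (MonoidHom.toAdditive (inclD N q))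
  map_zero' := rfl
  map_add' _ _ := rfl

variable {A}

@[simp] theorem resAll_apply (c : Additive (Gamma0 N) →+ A) (γ : Gamma0 (N * q)) :
    resAll N q A c (Additive.ofMul γ) = c (Additive.ofMul (incl N q γ)) := rfl

@[simp] theorem resAllD_apply [NeZero q] (c : Additive (Gamma0 N) →+ A) (γ : Gamma0 (N * q)) :
    resAllD N q A c (Additive.ofMul γ) = c (Additive.ofMul (inclD N q γ)) := rfl

theorem resAll_parabolic {c : Additive (Gamma0 N) →+ A} (hc : IsParabolicHom (Gamma0 N) c) :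
    IsParabolicHom (Gamma0 (N * q)) (resAll N q A c) := fun γ hγ => hc (incl N q γ) hγ

theorem resAllD_parabolic [NeZero q] {c : Additive (Gamma0 N) →+ A}
    (hc : IsParabolicHom (Gamma0 N) c) :
    IsParabolicHom (Gamma0 (N * q)) (resAllD N q A c) := fun γ hγ =>
  hc (inclD N q γ) (by rw [trace_inclD]; exact hγ)

end Res

section Cores

/-- The transfer (corestriction) `Hom(H, A) → Hom(G, A)` along an injective homomorphism
`f : H → G` with image of finite index (Mathlib's `MonoidHom.transfer` for the subgroup `f.range`);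
`0` if `f` is not injective or its image has infinite index.
For a left transversal `T` of `f.range`:  `(cores c)(g) = ∑_{t ∈ T} c (f⁻¹ (t'⁻¹ g t))`, where
`t' ∈ T` is the representative of `g t`. -/
def coresFun {G H : Type*} [Group G] [Group H] (f : H →* G) (A : Type*) [AddCommGroup A]
    (c : Additive H →+ A) : Additive G →+ A :=
  open Classical in
  if h : Function.Injective f ∧ f.range.FiniteIndex then
    haveI := h.2
    MonoidHom.toAdditiveLeft
      (MonoidHom.transfer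
        ((AddMonoidHom.toMultiplicativeRight c).comp
          ((MonoidHom.ofInjective h.1).symm : f.range →* H)))
  else 0

theorem coresFun_eq {G H : Type*} [Group G] [Group H] (f : H →* G) (A : Type*) [AddCommGroup A]
    (c : Additive H →+ A) (hinj : Function.Injective f) [hfin : f.range.FiniteIndex] :
    coresFun f A c =
      MonoidHom.toAdditiveLeft
        (MonoidHom.transfer
          ((AddMonoidHom.toMultiplicativeRight c).comp
            ((MonoidHom.ofInjective hinj).symm : f.range →* H))) := by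
  unfold coresFun
  rw [dif_pos ⟨hinj, hfin⟩]

variable (A : Type*) [AddCommGroup A]

/-- Corestriction `Hom(Γ₀(N q), A) → Hom(Γ₀(N), A)` along the inclusion. -/
def coresAll (c : Additive (Gamma0 (N * q)) →+ A) : Additive (Gamma0 N) →+ A :=
  coresFun (incl N q) A c

/-- Corestriction `Hom(Γ₀(N q), A) → Hom(Γ₀(N), A)` along `γ ↦ δ γ δ⁻¹`. -/
def coresAllD [NeZero q] (c : Additive (Gamma0 (N * q)) →+ A) : Additive (Gamma0 N) →+ A :=
  coresFun (inclD N q) A c

end Cores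

section Alpha

open Fermat.Agent.F3EC

/-- `res : HomPar N → HomPar (N q)`. -/
def resPar : HomPar N →ₗ[ℤ] HomPar (N * q) where
  toFun c := ⟨resAll N q ℤ c.1, resAll_parabolic N q c.2⟩
  map_add' _ _ := rfl
  map_smul' _ _ := rfl

/-- `res_δ : HomPar N → HomPar (N q)`. -/
def resParD [NeZero q] : HomPar N →ₗ[ℤ] HomPar (N * q) where
  toFun c := ⟨resAllD N q ℤ c.1, resAllD_parabolic N q c.2⟩
  map_add' _ _ := rfl
  map_smul' _ _ := rfl

@[simp] theorem resPar_apply (c : HomPar N) (γ : Gamma0 (N * q)) :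
    ((resPar N q c : HomPar (N * q)) : Additive (Gamma0 (N * q)) →+ ℤ) (Additive.ofMul γ) =
      (c : Additive (Gamma0 N) →+ ℤ) (Additive.ofMul (incl N q γ)) := rfl

@[simp] theorem resParD_apply [NeZero q] (c : HomPar N) (γ : Gamma0 (N * q)) :
    ((resParD N q c : HomPar (N * q)) : Additive (Gamma0 (N * q)) →+ ℤ) (Additive.ofMul γ) =
      (c : Additive (Gamma0 N) →+ ℤ) (Additive.ofMul (inclD N q γ)) := rfl

/-- The pair `(β₁, β₂)` of `ℤ`-linear maps `HomPar (N q) → HomPar N` is the pair of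
corestrictions along the two degeneracy homomorphisms. -/
structure IsCoresPair [NeZero q] (β₁ β₂ : HomPar (N * q) →ₗ[ℤ] HomPar N) : Prop where
  coe₁ : ∀ c : HomPar (N * q),
    ((β₁ c : HomPar N) : Additive (Gamma0 N) →+ ℤ) = coresAll N q ℤ c.1
  coe₂ : ∀ c : HomPar (N * q),
    ((β₂ c : HomPar N) : Additive (Gamma0 N) →+ ℤ) = coresAllD N q ℤ c.1

end Alpha

end Fermat.Agent.L
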