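import Fermat.Agent.L.Core
import Mathlib.LinearAlgebra.Dual.Lemmas
import Mathlib.LinearAlgebra.BilinearForm.TensorProduct
import Mathlib.Data.ZMod.Basic
import Mathlib.Algebra.Field.ZMod
import Mathlib.RingTheory.Finiteness.Basic

/-!
# Cluster L (S41, level raising): (I2) from Poincaré duality and (I1)

Architect: helper41.  Pure linear algebra: if `α = (α₁, α₂)` and `β = (β₁, β₂)` are adjoint for
forms which are nondegenerate modulo `p`, `e` is self-adjoint, and `e` kills the kernel of `α`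
modulo `p`, then the image of `e ⊕ e` is contained in the image of `β` modulo `p`.
-/

set_option autoImplicit false

namespace Fermat.Agent.L

open Module

/-- The field version. -/
theorem corePD_field {k V V' : Type*} [Field k] [AddCommGroup V] [Module k V]
    [FiniteDimensional k V] [AddCommGroup V'] [Module k V']
    (B : V →ₗ[k] V →ₗ[k] k) (B' : V' →ₗ[k] V' →ₗ[k] k)
    (hnd : ∀ x, (∀ y, B x y = 0) → x = 0) (hnd' : ∀ x, (∀ y, B' x y = 0) → x = 0)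
    (α₁ α₂ : V →ₗ[k] V') (β₁ β₂ : V' →ₗ[k] V)
    (hadj₁ : ∀ x y, B' (α₁ x) y = B x (β₁ y)) (hadj₂ : ∀ x y, B' (α₂ x) y = B x (β₂ y))
    (e : V →ₗ[k] V) (hself : ∀ x y, B (e x) y = B x (e y))
    (I1 : ∀ u₁ u₂, α₁ u₁ + α₂ u₂ = 0 → e u₁ = 0 ∧ e u₂ = 0) (w₁ w₂ : V) :
    ∃ z : V', e w₁ = β₁ z ∧ e w₂ = β₂ z := by
  by_contra hcon
  have hx : ((e w₁, e w₂) : V × V) ∉ LinearMap.range (β₁.prod β₂) := by
    rintro ⟨z, hz⟩
    apply hcon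
    refine ⟨z, ?_, ?_⟩
    · exact (congrArg Prod.fst hz).symm
    · exact (congrArg Prod.snd hz).symm
  obtain ⟨f, hf, hfW⟩ := Submodule.exists_dual_map_eq_bot_of_notMem hx inferInstance
  have hfβ : ∀ z, f (β₁ z, β₂ z) = 0 := by
    intro z
    have h1 : f (β₁ z, β₂ z) ∈ (LinearMap.range (β₁.prod β₂)).map f :=
      Submodule.mem_map_of_mem ⟨z, rfl⟩
    rw [hfW] at h1
    simpa using h1
  have hBinj : Function.Injective B := by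
    rw [injective_iff_map_eq_zero]
    intro x hx0
    exact hnd x fun y => by rw [hx0]; rfl
  have hBsurj : Function.Surjective B :=
    (LinearMap.injective_iff_surjective_of_finrank_eq_finrank
      (Subspace.dual_finrank_eq (K := k) (V := V)).symm).1 hBinj
  obtain ⟨ξ₁, hξ₁⟩ := hBsurj (f.comp (LinearMap.inl k V V))
  obtain ⟨ξ₂, hξ₂⟩ := hBsurj (f.comp (LinearMap.inr k V V))
  have hf_eq : ∀ v₁ v₂ : V, f (v₁, v₂) = B ξ₁ v₁ + B ξ₂ v₂ := by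
    intro v₁ v₂
    rw [hξ₁, hξ₂]
    simp only [LinearMap.comp_apply, LinearMap.inl_apply, LinearMap.inr_apply]
    rw [← map_add]
    simp
  have h0 : α₁ ξ₁ + α₂ ξ₂ = 0 := by
    apply hnd'
    intro z
    rw [map_add, LinearMap.add_apply, hadj₁, hadj₂, ← hf_eq]
    exact hfβ z
  obtain ⟨h1, h2⟩ := I1 ξ₁ ξ₂ h0
  apply hf
  rw [hf_eq, ← hself, ← hself, h1, h2]
  simp

open TensorProduct in
theorem corePD_exists_tmul {k Λ : Type*} [CommRing k] [AddCommGroup Λ]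
    (hk : Function.Surjective (Int.cast : ℤ → k)) (ξ : k ⊗[ℤ] Λ) :
    ∃ x : Λ, ξ = (1 : k) ⊗ₜ[ℤ] x := by
  induction ξ using TensorProduct.induction_on with
  | zero => exact ⟨0, by simp⟩
  | tmul a x =>
    obtain ⟨n, rfl⟩ := hk a
    refine ⟨n • x, ?_⟩
    rw [TensorProduct.tmul_smul, TensorProduct.smul_tmul']
    congr 1
    simp
  | add ξ η hξ hη =>
    obtain ⟨x, rfl⟩ := hξ
    obtain ⟨y, rfl⟩ := hη
    exact ⟨x + y, by rw [TensorProduct.tmul_add]⟩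

open TensorProduct in
theorem corePD_tmul_smul_eq_zero {M : Type*} [AddCommGroup M] (p : ℕ) (v : M) :
    (1 : ZMod p) ⊗ₜ[ℤ] ((p : ℤ) • v) = 0 := by
  rw [TensorProduct.tmul_smul, TensorProduct.smul_tmul']
  have : ((p : ℤ) • (1 : ZMod p)) = 0 := by simp
  rw [this, TensorProduct.zero_tmul]

open TensorProduct in
/-- **(I2) from duality**: the integral version, everything modulo a prime `p`. -/
theorem corePD {Λ Λ' : Type*} [AddCommGroup Λ] [AddCommGroup Λ'] [Module.Finite ℤ Λ]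
    (p : ℕ) [Fact p.Prime]
    (B : Λ →ₗ[ℤ] Λ →ₗ[ℤ] ℤ) (B' : Λ' →ₗ[ℤ] Λ' →ₗ[ℤ] ℤ)
    (hnd : ∀ x, (∀ y, (p : ℤ) ∣ B x y) → ∃ x', x = (p : ℤ) • x')
    (hnd' : ∀ x, (∀ y, (p : ℤ) ∣ B' x y) → ∃ x', x = (p : ℤ) • x')
    (α₁ α₂ : Λ →ₗ[ℤ] Λ') (β₁ β₂ : Λ' →ₗ[ℤ] Λ)
    (hadj₁ : ∀ x y, B' (α₁ x) y = B x (β₁ y)) (hadj₂ : ∀ x y, B' (α₂ x) y = B x (β₂ y))
    (e : Λ →ₗ[ℤ] Λ) (hself : ∀ x y, B (e x) y = B x (e y))
    (I1 : ∀ u₁ u₂, (∃ z, α₁ u₁ + α₂ u₂ = (p : ℤ) • z) →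
      (∃ v, e u₁ = (p : ℤ) • v) ∧ (∃ v, e u₂ = (p : ℤ) • v))
    (w₁ w₂ : Λ) :
    ∃ z : Λ', (∃ v, e w₁ - β₁ z = (p : ℤ) • v) ∧ (∃ v, e w₂ - β₂ z = (p : ℤ) • v) := by
  classical
  have hk : Function.Surjective (Int.cast : ℤ → ZMod p) := ZMod.intCast_surjective
  -- base changes
  let Bk : (ZMod p ⊗[ℤ] Λ) →ₗ[ZMod p] (ZMod p ⊗[ℤ] Λ) →ₗ[ZMod p] ZMod p :=
    LinearMap.BilinForm.baseChange (ZMod p) B
  let Bk' : (ZMod p ⊗[ℤ] Λ') →ₗ[ZMod p] (ZMod p ⊗[ℤ] Λ') →ₗ[ZMod p] ZMod p :=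
    LinearMap.BilinForm.baseChange (ZMod p) B'
  have hBk : ∀ x y : Λ, Bk ((1 : ZMod p) ⊗ₜ x) ((1 : ZMod p) ⊗ₜ y) = ((B x y : ℤ) : ZMod p) := by
    intro x y
    change LinearMap.BilinForm.baseChange (ZMod p) B _ _ = _
    rw [LinearMap.BilinForm.baseChange_tmul]
    simp
  have hBk' : ∀ x y : Λ', Bk' ((1 : ZMod p) ⊗ₜ x) ((1 : ZMod p) ⊗ₜ y) =
      ((B' x y : ℤ) : ZMod p) := by
    intro x y
    change LinearMap.BilinForm.baseChange (ZMod p) B' _ _ = _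
    rw [LinearMap.BilinForm.baseChange_tmul]
    simp
  -- detection of multiples of `p`
  have hdet : ∀ x : Λ, (1 : ZMod p) ⊗ₜ[ℤ] x = 0 → ∃ x', x = (p : ℤ) • x' := by
    intro x hx
    apply hnd
    intro y
    have h1 := hBk x y
    rw [hx, map_zero, LinearMap.zero_apply] at h1
    exact (ZMod.intCast_zmod_eq_zero_iff_dvd _ _).1 h1.symm
  have hdet' : ∀ x : Λ', (1 : ZMod p) ⊗ₜ[ℤ] x = 0 → ∃ x', x = (p : ℤ) • x' := by
    intro x hx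
    apply hnd'
    intro y
    have h1 := hBk' x y
    rw [hx, map_zero, LinearMap.zero_apply] at h1
    exact (ZMod.intCast_zmod_eq_zero_iff_dvd _ _).1 h1.symm
  have hndk : ∀ ξ, (∀ η, Bk ξ η = 0) → ξ = 0 := by
    intro ξ hξ
    obtain ⟨x, rfl⟩ := corePD_exists_tmul hk ξ
    obtain ⟨x', rfl⟩ := hnd x fun y => by
      have h1 := hξ ((1 : ZMod p) ⊗ₜ y)
      rw [hBk] at h1
      exact (ZMod.intCast_zmod_eq_zero_iff_dvd _ _).1 h1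
    exact corePD_tmul_smul_eq_zero p x'
  have hndk' : ∀ ξ, (∀ η, Bk' ξ η = 0) → ξ = 0 := by
    intro ξ hξ
    obtain ⟨x, rfl⟩ := corePD_exists_tmul hk ξ
    obtain ⟨x', rfl⟩ := hnd' x fun y => by
      have h1 := hξ ((1 : ZMod p) ⊗ₜ y)
      rw [hBk'] at h1
      exact (ZMod.intCast_zmod_eq_zero_iff_dvd _ _).1 h1
    exact corePD_tmul_smul_eq_zero p x'
  have hadjk : ∀ (α : Λ →ₗ[ℤ] Λ') (β : Λ' →ₗ[ℤ] Λ), (∀ x y, B' (α x) y = B x (β y)) →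
      ∀ ξ η, Bk' (α.baseChange (ZMod p) ξ) η = Bk ξ (β.baseChange (ZMod p) η) := by
    intro α β h ξ η
    obtain ⟨x, rfl⟩ := corePD_exists_tmul hk ξ
    obtain ⟨y, rfl⟩ := corePD_exists_tmul hk η
    rw [LinearMap.baseChange_tmul, LinearMap.baseChange_tmul, hBk, hBk', h]
  have hselfk : ∀ ξ η, Bk (e.baseChange (ZMod p) ξ) η = Bk ξ (e.baseChange (ZMod p) η) := by
    intro ξ η
    obtain ⟨x, rfl⟩ := corePD_exists_tmul hk ξ
    obtain ⟨y, rfl⟩ := corePD_exists_tmul hk η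
    rw [LinearMap.baseChange_tmul, LinearMap.baseChange_tmul, hBk, hBk, hself]
  have hI1k : ∀ ξ₁ ξ₂, α₁.baseChange (ZMod p) ξ₁ + α₂.baseChange (ZMod p) ξ₂ = 0 →
      e.baseChange (ZMod p) ξ₁ = 0 ∧ e.baseChange (ZMod p) ξ₂ = 0 := by
    intro ξ₁ ξ₂ h
    obtain ⟨u₁, rfl⟩ := corePD_exists_tmul hk ξ₁
    obtain ⟨u₂, rfl⟩ := corePD_exists_tmul hk ξ₂
    rw [LinearMap.baseChange_tmul, LinearMap.baseChange_tmul, ← TensorProduct.tmul_add] at h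
    obtain ⟨⟨v₁, hv₁⟩, ⟨v₂, hv₂⟩⟩ := I1 u₁ u₂ (hdet' _ h)
    rw [LinearMap.baseChange_tmul, LinearMap.baseChange_tmul, hv₁, hv₂]
    exact ⟨corePD_tmul_smul_eq_zero p v₁, corePD_tmul_smul_eq_zero p v₂⟩
  obtain ⟨ζ, hζ₁, hζ₂⟩ := corePD_field Bk Bk' hndk hndk' (α₁.baseChange (ZMod p))
    (α₂.baseChange (ZMod p)) (β₁.baseChange (ZMod p)) (β₂.baseChange (ZMod p))
    (hadjk α₁ β₁ hadj₁) (hadjk α₂ β₂ hadj₂) (e.baseChange (ZMod p)) hselfk hI1k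
    ((1 : ZMod p) ⊗ₜ w₁) ((1 : ZMod p) ⊗ₜ w₂)
  obtain ⟨z, rfl⟩ := corePD_exists_tmul hk ζ
  rw [LinearMap.baseChange_tmul, LinearMap.baseChange_tmul] at hζ₁ hζ₂
  refine ⟨z, hdet _ ?_, hdet _ ?_⟩
  · rw [TensorProduct.tmul_sub, hζ₁, sub_self]
  · rw [TensorProduct.tmul_sub, hζ₂, sub_self]

end Fermat.Agent.L
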