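import Fermat.Agent.F3.EigenReduction
import Fermat.Agent.L.CorePD

/-!
# Cluster L (S41): from a complex eigenvector to an eigenclass modulo `p` in the lattice

Architect: helper41.  `exists_eigenclass_mod_p`: a simultaneous eigenvector in `ℂ ⊗ M` (`M` a
finite free `ℤ`-module) whose eigenvalues are algebraic integers congruent to integers `n i`
modulo a maximal ideal over `p` gives `x ∈ M ∖ p M` with `T i x ≡ n i x` modulo `p M`.
-/

set_option autoImplicit false

noncomputable section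

namespace Fermat.Agent.L

open TensorProduct

/-- In a free `ℤ`-module, `1 ⊗ y = 0` in `ZMod p ⊗ M` forces `y ∈ p M`. -/
theorem eigenZMod_detect {M : Type*} [AddCommGroup M] [Module.Free ℤ M] (p : ℕ) [NeZero p]
    (y : M) (hy : (1 : ZMod p) ⊗ₜ[ℤ] y = 0) : ∃ y' : M, y = (p : ℤ) • y' := by
  classical
  set b := Module.Free.chooseBasis ℤ M with hb
  have hdvd : ∀ i, (p : ℤ) ∣ b.repr y i := by
    intro i
    have h1 := congrArg (fun z => (Algebra.TensorProduct.basis (ZMod p) b).repr z i) hy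
    simp only [Algebra.TensorProduct.basis_repr_tmul, one_smul, map_zero,
      Finsupp.coe_zero, Pi.zero_apply, Finsupp.mapRange_apply] at h1
    exact (ZMod.intCast_zmod_eq_zero_iff_dvd _ _).1 (by simpa using h1)
  refine ⟨b.repr.symm (Finsupp.mapRange (fun n : ℤ => n / (p : ℤ)) (by simp) (b.repr y)), ?_⟩
  apply b.repr.injective
  rw [map_smul, LinearEquiv.apply_symm_apply]
  ext i
  simp only [Finsupp.smul_apply, Finsupp.mapRange_apply, smul_eq_mul]
  exact (Int.mul_ediv_cancel' (hdvd i)).symm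

/-- **Eigenclass modulo `p`** from a complex eigenvector. -/
theorem exists_eigenclass_mod_p {M : Type*} [AddCommGroup M] [Module.Free ℤ M]
    [Module.Finite ℤ M] {ι : Type*} (T : ι → M →ₗ[ℤ] M) (a : ι → integralClosure ℤ ℂ)
    (n : ι → ℤ)
    (hv : ∃ v : ℂ ⊗[ℤ] M, v ≠ 0 ∧ ∀ i, (T i).baseChange ℂ v = (a i : ℂ) • v)
    (p : ℕ) [Fact p.Prime] (𝔪 : Ideal (integralClosure ℤ ℂ)) (hmax : 𝔪.IsMaximal)
    (hpm : (p : integralClosure ℤ ℂ) ∈ 𝔪)
    (han : ∀ i, a i - ((n i : ℤ) : integralClosure ℤ ℂ) ∈ 𝔪) :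
    ∃ x : M, (¬ ∃ x', x = (p : ℤ) • x') ∧ ∀ i, ∃ v, T i x - n i • x = (p : ℤ) • v := by
  classical
  let _ : Field (integralClosure ℤ ℂ ⧸ 𝔪) := Ideal.Quotient.field 𝔪
  have hchar : CharP (integralClosure ℤ ℂ ⧸ 𝔪) p := by
    have h0 : ((p : ℕ) : integralClosure ℤ ℂ ⧸ 𝔪) = 0 := by
      have := (Ideal.Quotient.eq_zero_iff_mem (I := 𝔪)).2 hpm
      simpa using this
    exact (CharP.charP_iff_prime_eq_zero (Fact.out : p.Prime)).2 h0
  -- step 1: reduce to the residue field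
  obtain ⟨x₁, hx₁0, hx₁⟩ := Fermat.Agent.F3Eig.exists_eigenvector_reduction T a hv
    (Ideal.Quotient.mk 𝔪)
  -- step 2: descend to the prime field
  have hj : Function.Injective (ZMod.castHom (dvd_refl p) (integralClosure ℤ ℂ ⧸ 𝔪)) :=
    RingHom.injective _
  obtain ⟨x₂, hx₂0, hx₂⟩ := Fermat.Agent.F3Eig.exists_eigenvector_reduction_of_injective
    (R := ZMod p) (C := integralClosure ℤ ℂ ⧸ 𝔪) (K := ZMod p) T
    (fun i => ((n i : ℤ) : ZMod p)) (ZMod.castHom (dvd_refl p) (integralClosure ℤ ℂ ⧸ 𝔪)) hj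
    (RingHom.id (ZMod p)) ⟨x₁, hx₁0, fun i => by
      rw [hx₁ i]
      congr 1
      rw [map_intCast]
      have h1 := (Ideal.Quotient.eq (I := 𝔪)).2 (han i)
      rw [h1, map_intCast]⟩
  -- step 3: lift to the lattice
  obtain ⟨x, rfl⟩ := corePD_exists_tmul (k := ZMod p) ZMod.intCast_surjective x₂
  refine ⟨x, ?_, fun i => ?_⟩
  · rintro ⟨x', rfl⟩
    exact hx₂0 (corePD_tmul_smul_eq_zero p x')
  · have h1 := hx₂ i
    rw [LinearMap.baseChange_tmul, RingHom.id_apply] at h1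
    have h2 : (1 : ZMod p) ⊗ₜ[ℤ] (T i x - n i • x) = 0 := by
      rw [TensorProduct.tmul_sub, h1, TensorProduct.tmul_smul, TensorProduct.smul_tmul',
        sub_eq_zero]
      congr 1
      simp
    exact eigenZMod_detect p _ h2

end Fermat.Agent.L
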