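import Fermat.Agent.L.Interfaces

/-!
# Cluster L (S41): (I1) for the lattices `HomPar` from Ihara's lemma

Architect: helper41.  Reduction modulo `p` of parabolic homomorphisms, naturality of the Hecke
operators and of the degeneracy maps in the coefficients, and division by `p` in `HomPar`.
-/

set_option autoImplicit false

noncomputable section

namespace Fermat.Agent.L

open CongruenceSubgroup ModularCurve.Period Fermat.Agent.F3EC
open scoped MatrixGroups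

/-- Reduction modulo `p` of a homomorphism `Γ₀(N) → ℤ`. -/
def redHom (N p : ℕ) (c : Additive (Gamma0 N) →+ ℤ) : Additive (Gamma0 N) →+ ZMod p :=
  (Int.castAddHom (ZMod p)).comp c

@[simp] theorem redHom_apply (N p : ℕ) (c : Additive (Gamma0 N) →+ ℤ)
    (γ : Additive (Gamma0 N)) : redHom N p c γ = ((c γ : ℤ) : ZMod p) := rfl

theorem redHom_heckeHomAll {N ℓ : ℕ} [Fact ℓ.Prime] (hℓN : ¬ ℓ ∣ N) (p : ℕ)
    (c : Additive (Gamma0 N) →+ ℤ) :
    heckeHomAll hℓN (ZMod p) (redHom N p c) = redHom N p (heckeHomAll hℓN ℤ c) := by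
  refine DFunLike.ext _ _ fun γ => ?_
  obtain ⟨γ, rfl⟩ := Additive.ofMul.surjective γ
  rw [heckeHomAll_apply, redHom_apply, heckeHomAll_apply]
  push_cast
  rfl

theorem redHom_resAll (N q p : ℕ) (c : Additive (Gamma0 N) →+ ℤ) :
    resAll N q (ZMod p) (redHom N p c) = redHom (N * q) p (resAll N q ℤ c) := rfl

theorem redHom_resAllD (N q p : ℕ) [NeZero q] (c : Additive (Gamma0 N) →+ ℤ) :
    resAllD N q (ZMod p) (redHom N p c) = redHom (N * q) p (resAllD N q ℤ c) := rfl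

/-- A parabolic homomorphism all of whose values are divisible by `p ≠ 0` is `p` times a
parabolic homomorphism. -/
theorem homPar_exists_eq_smul (N : ℕ) (p : ℤ) (_hp : p ≠ 0) (w : HomPar N)
    (hw : ∀ γ : Additive (Gamma0 N), p ∣ (w : Additive (Gamma0 N) →+ ℤ) γ) :
    ∃ v : HomPar N, w = p • v := by
  let v₀ : Additive (Gamma0 N) →+ ℤ :=
    { toFun := fun γ => (w : Additive (Gamma0 N) →+ ℤ) γ / p
      map_zero' := by simp
      map_add' := fun γ δ => by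
        rw [map_add]
        exact Int.add_ediv_of_dvd_left (hw γ) }
  have hv₀ : IsParabolicHom (Gamma0 N) v₀ := by
    intro γ hγ
    have h1 := (mem_parabolicHoms_iff.1 w.2) γ hγ
    change (w : Additive (Gamma0 N) →+ ℤ) (Additive.ofMul γ) / p = 0
    rw [h1, Int.zero_ediv]
  refine ⟨⟨v₀, mem_parabolicHoms_iff.2 hv₀⟩, ?_⟩
  apply Subtype.ext
  ext γ
  change (w : Additive (Gamma0 N) →+ ℤ) γ = p • ((w : Additive (Gamma0 N) →+ ℤ) γ / p)
  rw [smul_eq_mul, Int.mul_ediv_cancel' (hw γ)]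

/-- **(I1)** for the lattices, from Ihara's lemma. -/
theorem I1_of_ihara (N q p : ℕ) [NeZero q] (hq : q.Prime) (hqN : ¬ q ∣ N) (hN : 0 < N)
    (hp : p.Prime) (hp2 : p ≠ 2) (hqp : q ≠ p) (hIh : IharaStatement N q p) :
    ∃ M₀ : ℕ, 0 < M₀ ∧ ∀ ℓ : Nat.Primes, ¬ (ℓ : ℕ) ∣ N → ¬ (ℓ : ℕ) ∣ q → (ℓ : ℕ) ≠ p →
      (ℓ : ℕ) ≡ 1 [MOD M₀] → ∀ u₁ u₂ : HomPar N,
      (∃ z : HomPar (N * q), resPar N q u₁ + resParD N q u₂ = (p : ℤ) • z) →
      (∃ v, heckeHom N ℓ u₁ - (((ℓ : ℕ) : ℤ) + 1) • u₁ = (p : ℤ) • v) ∧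
      (∃ v, heckeHom N ℓ u₂ - (((ℓ : ℕ) : ℤ) + 1) • u₂ = (p : ℤ) • v) := by
  obtain ⟨M₀, hM₀, hI⟩ := hIh hq hqN hN hp hp2 hqp
  refine ⟨M₀, hM₀, fun ℓ hℓN hℓq hℓp hℓ1 u₁ u₂ ⟨z, hz⟩ => ?_⟩
  have : Fact (ℓ : ℕ).Prime := ⟨ℓ.2⟩
  have hp0 : (p : ℤ) ≠ 0 := by exact_mod_cast hp.ne_zero
  have hker : resAll N q (ZMod p) (redHom N p u₁.1) + resAllD N q (ZMod p) (redHom N p u₂.1) = 0 := by
    rw [redHom_resAll, redHom_resAllD]
    refine DFunLike.ext _ _ fun γ => ?_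
    have h1 := congrArg (fun w : HomPar (N * q) => (w : Additive (Gamma0 (N * q)) →+ ℤ) γ) hz
    change (((resAll N q ℤ u₁.1 γ : ℤ) : ZMod p)) + (((resAllD N q ℤ u₂.1 γ : ℤ) : ZMod p)) = 0
    have h2 : (resAll N q ℤ u₁.1 γ : ℤ) + resAllD N q ℤ u₂.1 γ =
        (p : ℤ) * (z : Additive (Gamma0 (N * q)) →+ ℤ) γ := h1
    rw [← Int.cast_add, h2]
    simp
  obtain ⟨h₁, h₂⟩ := hI (redHom N p u₁.1) (redHom N p u₂.1) hker ℓ hℓN hℓq hℓp hℓ1
  have key : ∀ u : HomPar N,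
      heckeHomAll hℓN (ZMod p) (redHom N p u.1) = ((((ℓ : ℕ) : ℤ)) + 1) • redHom N p u.1 →
      ∃ v, heckeHom N ℓ u - (((ℓ : ℕ) : ℤ) + 1) • u = (p : ℤ) • v := by
    intro u hu
    apply homPar_exists_eq_smul N (p : ℤ) hp0
    intro γ
    rw [redHom_heckeHomAll] at hu
    have h1 := DFunLike.congr_fun hu γ
    rw [redHom_apply, AddMonoidHom.smul_apply, redHom_apply] at h1
    rw [← ZMod.intCast_zmod_eq_zero_iff_dvd]
    have h2 : ((heckeHom N ℓ u - (((ℓ : ℕ) : ℤ) + 1) • u : HomPar N) :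
        Additive (Gamma0 N) →+ ℤ) γ =
        heckeHomAll hℓN ℤ u.1 γ - (((ℓ : ℕ) : ℤ) + 1) * u.1 γ := by
      have h3 := heckeHom_coe ℓ hℓN u
      change ((heckeHom N ℓ u : HomPar N) : Additive (Gamma0 N) →+ ℤ) γ -
        (((ℓ : ℕ) : ℤ) + 1) • u.1 γ = _
      rw [h3]
      rfl
    rw [h2]
    push_cast
    rw [h1]
    simp
  exact ⟨key u₁ h₁, key u₂ h₂⟩

end Fermat.Agent.L
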