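import Fermat.Agent.L.Core
import Fermat.Agent.L.CorePD
import Fermat.Agent.L.EigenZMod
import Fermat.Agent.L.HeckeRed
import Fermat.Agent.L.Interfaces
import Fermat.Agent.F3.EigenChar.PeriodEigen
import Fermat.Agent.F3.EigenChar.Lattice

/-!
# Cluster L (S41, level raising): assembly

Architect: helper41.  `s41_of_statements`: the frozen statement S41 from the five work packages
`DegStatement`, `IharaStatement`, `PDStatement`, `NonEisStatement`, `NewStatement`.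
-/

set_option autoImplicit false

noncomputable section

namespace Fermat.Agent.L

open CongruenceSubgroup ModularCurve.Period Fermat.Agent.F3EC TensorProduct
open scoped MatrixGroups

/-- The sign `ε` with `a_q ≡ ε (q + 1)` from the level raising congruence. -/
theorem exists_sign_of_sq {𝔪 : Ideal (integralClosure ℤ ℂ)} (hmax : 𝔪.IsMaximal)
    (a : integralClosure ℤ ℂ) (q : ℕ)
    (h : a ^ 2 - ((q : integralClosure ℤ ℂ) + 1) ^ 2 ∈ 𝔪) :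
    ∃ ε : ℤ, ε * ε = 1 ∧ a - ((ε * ((q : ℤ) + 1) : ℤ) : integralClosure ℤ ℂ) ∈ 𝔪 := by
  have h1 : (a - ((q : integralClosure ℤ ℂ) + 1)) * (a + ((q : integralClosure ℤ ℂ) + 1)) ∈ 𝔪 := by
    have : (a - ((q : integralClosure ℤ ℂ) + 1)) * (a + ((q : integralClosure ℤ ℂ) + 1)) =
        a ^ 2 - ((q : integralClosure ℤ ℂ) + 1) ^ 2 := by ring
    rw [this]; exact h
  rcases hmax.isPrime.mem_or_mem h1 with h2 | h2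
  · exact ⟨1, by norm_num, by simpa using h2⟩
  · refine ⟨-1, by norm_num, ?_⟩
    have : a - ((((-1 : ℤ) * ((q : ℤ) + 1) : ℤ)) : integralClosure ℤ ℂ) =
        a + ((q : integralClosure ℤ ℂ) + 1) := by
      push_cast; ring
    rw [this]; exact h2

/-- **S41 from the five work packages.** -/
theorem s41_of_statements {W : WeierstrassCurve ℤ} {p N q' : ℕ} (hp : p.Prime) (hp2 : p ≠ 2)
    (hN : 0 < N) (hq' : q'.Prime) (hq'N : ¬ q' ∣ N) (hq'p : q' ≠ p) [NeZero q']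
    (hDeg : DegStatement N q') (hIh : IharaStatement N q' p) (hPD : PDStatement N q' p)
    (hNE : NonEisStatement W p) (hNew : NewStatement N q')
    (f : CuspForm (CongruenceSubgroup.Gamma0 N) 2) (𝔪 : Ideal (integralClosure ℤ ℂ))
    (hf : f.IsNormalizedEigenform) (hmax : 𝔪.IsMaximal) (hpm : (p : integralClosure ℤ ℂ) ∈ 𝔪)
    (hcong : ∀ ℓ : ℕ, ℓ.Prime → W.IsGoodPrimeFor ℓ → ¬ ℓ ∣ N → ℓ ≠ p →
      ∃ a : integralClosure ℤ ℂ, (a : ℂ) = ModularFormClass.qCoeff f ℓ ∧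
        a - ((W.apOfModel ℓ : ℤ) : integralClosure ℤ ℂ) ∈ 𝔪)
    (hLR : ∃ a : integralClosure ℤ ℂ, (a : ℂ) = ModularFormClass.qCoeff f q' ∧
      a ^ 2 - ((q' : integralClosure ℤ ℂ) + 1) ^ 2 ∈ 𝔪) :
    ∃ (g : CuspForm (CongruenceSubgroup.Gamma0 (N * q')) 2) (𝔪' : Ideal (integralClosure ℤ ℂ)),
      g.IsNormalizedEigenform ∧ 𝔪'.IsMaximal ∧ (p : integralClosure ℤ ℂ) ∈ 𝔪' ∧
      (∀ ℓ : ℕ, ℓ.Prime → W.IsGoodPrimeFor ℓ → ¬ ℓ ∣ N * q' → ℓ ≠ p →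
        ∃ a : integralClosure ℤ ℂ, (a : ℂ) = ModularFormClass.qCoeff g ℓ ∧
          a - ((W.apOfModel ℓ : ℤ) : integralClosure ℤ ℂ) ∈ 𝔪') ∧
      g.IsNewAt q' := by
  classical
  have hNZ : NeZero N := ⟨hN.ne'⟩
  have hFp : Fact p.Prime := ⟨hp⟩
  -- the five inputs
  obtain ⟨β₁, β₂, hβ, h11, h22, h12, h21, hα₁, hα₂, hβ₁, hβ₂⟩ := hDeg hq' hq'N
  obtain ⟨B, B', ε₀, -, -, -, hnd, hnd', hadj₁, hadj₂, hself⟩ :=
    hPD hq' hq'N hp hp2 hq'p β₁ β₂ hβ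
  obtain ⟨M₀, hM₀, hI1⟩ := I1_of_ihara N q' p hq' hq'N hN hp hp2 hq'p hIh
  obtain ⟨ℓ₀, hℓ₀, hℓ₀S, hℓ₀good, hℓ₀1, hℓ₀ne⟩ := hNE M₀ hM₀ (N * q' * p).primeFactors
  have hNqp : N * q' * p ≠ 0 :=
    Nat.mul_ne_zero (Nat.mul_ne_zero hN.ne' hq'.ne_zero) hp.ne_zero
  have hℓ₀ndvd : ¬ ℓ₀ ∣ N * q' * p := fun h => hℓ₀S (Nat.mem_primeFactors.2 ⟨hℓ₀, h, hNqp⟩)
  have hℓ₀Nq : ¬ ℓ₀ ∣ N * q' := fun h => hℓ₀ndvd (Dvd.dvd.mul_right h p)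
  have hℓ₀N : ¬ ℓ₀ ∣ N := fun h => hℓ₀Nq (Dvd.dvd.mul_right h q')
  have hℓ₀q : ¬ ℓ₀ ∣ q' := fun h => hℓ₀Nq (Dvd.dvd.mul_left h N)
  have hℓ₀p : ℓ₀ ≠ p := fun h => hℓ₀ndvd (h ▸ Dvd.intro_left _ rfl)
  -- the set of good primes
  set P : Set Nat.Primes :=
    {ℓ | W.IsGoodPrimeFor (ℓ : ℕ) ∧ ¬ (ℓ : ℕ) ∣ N * q' ∧ (ℓ : ℕ) ≠ p} with hP
  -- the sign
  obtain ⟨aq, haq, haq2⟩ := hLR
  obtain ⟨ε, hε, hεm⟩ := exists_sign_of_sq hmax aq q' haq2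
  -- the eigenclass `x` modulo `p`
  obtain ⟨v, hv0, hv⟩ := exists_period_eigenvector N hf
  let T : Option P → HomPar N →ₗ[ℤ] HomPar N := fun i =>
    match i with
    | some ℓ => heckeHom N ℓ.1
    | none => heckeHom N ⟨q', hq'⟩
  let n : Option P → ℤ := fun i =>
    match i with
    | some ℓ => W.apOfModel (ℓ.1 : ℕ)
    | none => ε * ((q' : ℤ) + 1)
  have hex : ∀ i : Option P, ∃ a : integralClosure ℤ ℂ,
      (T i).baseChange ℂ v = (a : ℂ) • v ∧ a - ((n i : ℤ) : integralClosure ℤ ℂ) ∈ 𝔪 := by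
    intro i
    cases i with
    | none =>
      refine ⟨aq, ?_, hεm⟩
      rw [haq]
      exact hv ⟨q', hq'⟩ hq'N
    | some ℓ =>
      have hℓN : ¬ (ℓ.1 : ℕ) ∣ N := fun h => ℓ.2.2.1 (Dvd.dvd.mul_right h q')
      obtain ⟨a, ha, ham⟩ := hcong ℓ.1 ℓ.1.2 ℓ.2.1 hℓN ℓ.2.2.2
      refine ⟨a, ?_, ham⟩
      rw [ha]
      exact hv ℓ.1 hℓN
  choose a ha using hex
  obtain ⟨x, hx, hxT⟩ := exists_eigenclass_mod_p T a n ⟨v, hv0, fun i => (ha i).1⟩ p 𝔪 hmax hpm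
    (fun i => (ha i).2)
  -- the index `ℓ₀`
  let i₀ : P := ⟨⟨ℓ₀, hℓ₀⟩, hℓ₀good, hℓ₀Nq, hℓ₀p⟩
  have hcop : IsCoprime (W.apOfModel ℓ₀ - ((ℓ₀ : ℤ) + 1)) (p : ℤ) := by
    have hpp : Prime (p : ℤ) := Nat.prime_iff_prime_int.1 hp
    exact (hpp.coprime_iff_not_dvd.2 hℓ₀ne).symm
  have hI1' : ∀ u₁ u₂ : HomPar N,
      (∃ z : HomPar (N * q'), resPar N q' u₁ + resParD N q' u₂ = (p : ℤ) • z) →
      (∃ v, heckeHom N ⟨ℓ₀, hℓ₀⟩ u₁ - ((ℓ₀ : ℤ) + 1) • u₁ = (p : ℤ) • v) ∧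
      (∃ v, heckeHom N ⟨ℓ₀, hℓ₀⟩ u₂ - ((ℓ₀ : ℤ) + 1) • u₂ = (p : ℤ) • v) :=
    fun u₁ u₂ h => hI1 ⟨ℓ₀, hℓ₀⟩ hℓ₀N hℓ₀q hℓ₀p hℓ₀1 u₁ u₂ h
  -- (I2) from duality
  have hI2 : ∀ w₁ w₂ : HomPar N, ∃ z : HomPar (N * q'),
      (∃ v, heckeHom N ⟨ℓ₀, hℓ₀⟩ w₁ - ((ℓ₀ : ℤ) + 1) • w₁ - β₁ z = (p : ℤ) • v) ∧
      (∃ v, heckeHom N ⟨ℓ₀, hℓ₀⟩ w₂ - ((ℓ₀ : ℤ) + 1) • w₂ - β₂ z = (p : ℤ) • v) := by
    intro w₁ w₂
    have h := corePD p B B' hnd hnd' (resPar N q') (resParD N q') β₁ β₂ hadj₁ hadj₂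
      (heckeHom N ⟨ℓ₀, hℓ₀⟩ - ((ℓ₀ : ℤ) + 1) • LinearMap.id)
      (by
        intro x y
        simp only [LinearMap.sub_apply, LinearMap.smul_apply, LinearMap.id_coe, id_eq, map_sub,
          map_smul, hself ⟨ℓ₀, hℓ₀⟩ hℓ₀Nq x y])
      (by
        intro u₁ u₂ hz
        simpa only [LinearMap.sub_apply, LinearMap.smul_apply, LinearMap.id_coe, id_eq]
          using hI1' u₁ u₂ hz)
      w₁ w₂
    simpa only [LinearMap.sub_apply, LinearMap.smul_apply, LinearMap.id_coe, id_eq] using h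
  -- the core
  obtain ⟨b, hb₁, hb₂, hbp, hbT⟩ := levelRaising_core (p : ℤ)
    (fun i : P => heckeHom N i.1) (fun i : P => heckeHom (N * q') i.1)
    (fun i : P => W.apOfModel (i.1 : ℕ)) (resPar N q') (resParD N q') β₁ β₂
    (heckeHom N ⟨q', hq'⟩) ((q' : ℤ) + 1) ε hε
    (fun i u => hα₁ i.1 i.2.2.1 u) (fun i u => hα₂ i.1 i.2.2.1 u)
    (fun i z => hβ₁ i.1 i.2.2.1 z) (fun i z => hβ₂ i.1 i.2.2.1 z)
    h11 h22 h12 h21 i₀ ((ℓ₀ : ℤ) + 1) hcop hI1' hI2 x hx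
    (fun i => hxT (some i)) (hxT none)
  -- back to forms
  obtain ⟨g, 𝔪', hg, hmax', hpm', hnew, hcong'⟩ := hNew hq' hq'N hN β₁ β₂ hβ p hp
    (fun ℓ => W.apOfModel (ℓ : ℕ)) P (fun ℓ hℓ => hℓ.2.1) b hb₁ hb₂ hbp
    (fun ℓ hℓ => hbT ⟨ℓ, hℓ⟩)
  exact ⟨g, 𝔪', hg, hmax', hpm',
    fun ℓ hℓ hgood hℓNq hℓp => hcong' ⟨ℓ, hℓ⟩ ⟨hgood, hℓNq, hℓp⟩, hnew⟩

end Fermat.Agent.L
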