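import Mathlib.LinearAlgebra.Matrix.Charpoly.LinearMap
import Mathlib.Algebra.Polynomial.AlgebraMap
import Mathlib.RingTheory.Coprime.Lemmas
import Mathlib.RingTheory.Finiteness.Prod

/-!
# Cluster L (S41, level raising): the abstract algebraic core

Architect: helper41.  Blueprint: `NOTES/blueprint-L-S41.md`.

`levelRaising_core` is Ribet's argument in pure algebra: given lattices `Λ` ("level `N`") and
`Λ'` ("level `N q`") with Hecke families, degeneracy maps `α = (α₁, α₂) : Λ² → Λ'` and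
`β = (β₁, β₂) : Λ' → Λ²` with `β α = [[c, τ], [τ, c]]`, Ihara's lemma in the forms (I1), (I2),
and a class `x ∈ Λ`, nonzero modulo `p`, which is an eigenclass modulo `p` with `τ x ≡ ε c x`,
there is a class `b ∈ ker β ⊆ Λ'`, nonzero modulo `p`, with the same eigenvalues modulo `p`.
No commutativity of the Hecke operators and no torsion-freeness is used.
-/

set_option autoImplicit false

namespace Fermat.Agent.L

open Polynomial

/-- Polynomials in semiconjugate endomorphisms are semiconjugate. -/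
theorem core_aeval_semiconj {R M M₂ : Type*} [CommRing R] [AddCommGroup M] [Module R M]
    [AddCommGroup M₂] [Module R M₂] (f : M →ₗ[R] M₂) (g : Module.End R M)
    (g₂ : Module.End R M₂) (h : g₂.comp f = f.comp g) (Q : R[X]) (v : M) :
    aeval g₂ Q (f v) = f (aeval g Q v) := by
  rw [aeval_endomorphism, aeval_endomorphism, Polynomial.sum, Polynomial.sum, map_sum]
  refine Finset.sum_congr rfl fun n _ => ?_
  rw [map_smul]
  congr 1
  exact LinearMap.congr_fun (Module.End.commute_pow_left_of_commute h n) v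

/-- Determinant trick relative to a submodule: if `e` preserves `N` and maps `M` into
`N + I M`, then some monic polynomial `Q ≡ X ^ n` modulo `I` has `Q(e) M ⊆ N`. -/
theorem core_exists_poly_mem {R M : Type*} [CommRing R] [AddCommGroup M] [Module R M]
    [Module.Finite R M] (I : Ideal R) (N : Submodule R M) (e : Module.End R M)
    (hN : N ≤ N.comap e) (he : ∀ w, ∃ z ∈ N, e w - z ∈ (I • ⊤ : Submodule R M)) :
    ∃ Q : R[X], Q.Monic ∧ (∀ k, Q.coeff k ∈ I ^ (Q.natDegree - k)) ∧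
      ∀ w, aeval e Q w ∈ N := by
  set ebar : Module.End R (M ⧸ N) := N.mapQ N e hN with hebar
  have hrange : LinearMap.range ebar ≤ (I • ⊤ : Submodule R (M ⧸ N)) := by
    rintro _ ⟨wbar, rfl⟩
    obtain ⟨w, rfl⟩ := N.mkQ_surjective wbar
    obtain ⟨z, hz, hwz⟩ := he w
    have h1 : ebar (N.mkQ w) = N.mkQ (e w - z) := by
      simp only [hebar, Submodule.mkQ_apply, Submodule.mapQ_apply, Submodule.Quotient.mk_sub]
      rw [(Submodule.Quotient.mk_eq_zero N).2 hz, sub_zero]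
    rw [h1]
    have h2 : N.mkQ (e w - z) ∈ (I • ⊤ : Submodule R M).map N.mkQ := Submodule.mem_map_of_mem hwz
    rw [Submodule.map_smul'', Submodule.map_top, Submodule.range_mkQ] at h2
    exact h2
  obtain ⟨Q, hmonic, -, hcoeff, hQ⟩ :=
    LinearMap.exists_monic_and_natDegree_eq_and_coeff_mem_pow_and_aeval_eq_zero R ebar I hrange
  refine ⟨Q, hmonic, hcoeff, fun w => ?_⟩
  have hsemi : ebar.comp N.mkQ = N.mkQ.comp e := by
    ext v
    simp [hebar]
  have h3 := core_aeval_semiconj N.mkQ e ebar hsemi Q w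
  rw [hQ, LinearMap.zero_apply] at h3
  exact (Submodule.Quotient.mk_eq_zero N).1 h3.symm


/-- The submodule `p M` of multiples of `p`. -/
def coreP {M : Type*} [AddCommGroup M] (p : ℤ) : Submodule ℤ M :=
  LinearMap.range (p • (LinearMap.id : M →ₗ[ℤ] M))

theorem mem_coreP {M : Type*} [AddCommGroup M] {p : ℤ} {u : M} :
    u ∈ coreP (M := M) p ↔ ∃ v, u = p • v := by
  simp only [coreP, LinearMap.mem_range, LinearMap.smul_apply, LinearMap.id_coe, id_eq]
  exact ⟨fun ⟨v, hv⟩ => ⟨v, hv.symm⟩, fun ⟨v, hv⟩ => ⟨v, hv.symm⟩⟩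

theorem coreP_smul_mem {M : Type*} [AddCommGroup M] (p : ℤ) (v : M) : p • v ∈ coreP (M := M) p :=
  mem_coreP.2 ⟨v, rfl⟩

theorem coreP_map {M M₂ : Type*} [AddCommGroup M] [AddCommGroup M₂] {p : ℤ} (f : M →ₗ[ℤ] M₂)
    {u : M} (hu : u ∈ coreP (M := M) p) : f u ∈ coreP (M := M₂) p := by
  obtain ⟨v, rfl⟩ := mem_coreP.1 hu
  exact mem_coreP.2 ⟨f v, map_smul f p v⟩

theorem coreP_of_coprime {M : Type*} [AddCommGroup M] {p μ : ℤ} (h : IsCoprime μ p) {u : M}
    (hu : μ • u ∈ coreP (M := M) p) : u ∈ coreP (M := M) p := by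
  obtain ⟨r, s, hrs⟩ := h
  have h1 : u = r • (μ • u) + p • (s • u) := by
    rw [smul_smul, smul_smul, ← add_smul, mul_comm p s, hrs, one_smul]
  rw [h1]
  exact (coreP p).add_mem ((coreP p).smul_mem r hu) (coreP_smul_mem p _)

theorem coreP_eq_smul_top {M : Type*} [AddCommGroup M] (p : ℤ) :
    (coreP (M := M) p) = (Ideal.span {p} • ⊤ : Submodule ℤ M) := by
  apply le_antisymm
  · intro u hu
    obtain ⟨v, rfl⟩ := mem_coreP.1 hu
    exact Submodule.smul_mem_smul (Ideal.mem_span_singleton_self p) Submodule.mem_top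
  · rw [Submodule.smul_le]
    intro r hr n _
    obtain ⟨s, rfl⟩ := Ideal.mem_span_singleton'.1 hr
    rw [mul_comm, mul_smul]
    exact coreP_smul_mem p _

/-- If `e y ≡ μ y` modulo `p`, then `e ^ k y ≡ μ ^ k y` modulo `p`. -/
theorem core_pow_congr {M : Type*} [AddCommGroup M] {p μ : ℤ} (e : Module.End ℤ M) {y : M}
    (h : e y - μ • y ∈ coreP (M := M) p) (k : ℕ) : (e ^ k) y - μ ^ k • y ∈ coreP (M := M) p := by
  induction k with
  | zero => simp
  | succ k ih =>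
    have h1 : (e ^ (k + 1)) y - μ ^ (k + 1) • y =
        (e ^ k) (e y - μ • y) + μ • ((e ^ k) y - μ ^ k • y) := by
      rw [pow_succ, Module.End.mul_apply, map_sub, map_smul, smul_sub, smul_smul, pow_succ,
        mul_comm μ (μ ^ k)]
      abel
    rw [h1]
    exact (coreP p).add_mem (coreP_map _ h) ((coreP p).smul_mem μ ih)

/-- A monic polynomial `Q ≡ X ^ n` modulo `p` acts like `μ ^ n` on `y` modulo `p` as soon as
`e y ≡ μ y`. -/
theorem core_aeval_congr {M : Type*} [AddCommGroup M] {p μ : ℤ} (e : Module.End ℤ M) {y : M}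
    (h : e y - μ • y ∈ coreP (M := M) p) (Q : ℤ[X]) (hQ : Q.Monic)
    (hcoeff : ∀ k, Q.coeff k ∈ Ideal.span {p} ^ (Q.natDegree - k)) :
    aeval e Q y - μ ^ Q.natDegree • y ∈ coreP (M := M) p := by
  have hdvd : C p ∣ Q - X ^ Q.natDegree := by
    rw [Polynomial.C_dvd_iff_dvd_coeff]
    intro k
    rw [coeff_sub, coeff_X_pow]
    rcases lt_trichotomy k Q.natDegree with hk | hk | hk
    · rw [if_neg hk.ne, sub_zero]
      have h1 := hcoeff k
      have h2 : Ideal.span {p} ^ (Q.natDegree - k) ≤ Ideal.span {p} :=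
        Ideal.pow_le_self (Nat.sub_ne_zero_of_lt hk)
      exact Ideal.mem_span_singleton.1 (h2 h1)
    · rw [if_pos hk, hk, hQ.coeff_natDegree, sub_self]
      exact dvd_zero _
    · rw [if_neg hk.ne', sub_zero, coeff_eq_zero_of_natDegree_lt hk]
      exact dvd_zero _
  obtain ⟨Q₁, hQ₁⟩ := hdvd
  have hQeq : Q = X ^ Q.natDegree + C p * Q₁ := by rw [← hQ₁]; ring
  have h1 : aeval e Q y = (e ^ Q.natDegree) y + p • (aeval e Q₁ y) := by
    conv_lhs => rw [hQeq]
    simp only [map_add, map_mul, map_pow, aeval_X, aeval_C, LinearMap.add_apply,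
      Module.End.mul_apply, Module.algebraMap_end_apply]
  rw [h1, add_sub_right_comm]
  exact (coreP p).add_mem (core_pow_congr e h _) (coreP_smul_mem p _)

/-- **Abstract level raising** (Ribet's argument). -/
theorem levelRaising_core
    {Λ Λ' ι : Type*} [AddCommGroup Λ] [AddCommGroup Λ'] [Module.Finite ℤ Λ]
    (p : ℤ) (T : ι → Λ →ₗ[ℤ] Λ) (T' : ι → Λ' →ₗ[ℤ] Λ') (a : ι → ℤ)
    (α₁ α₂ : Λ →ₗ[ℤ] Λ') (β₁ β₂ : Λ' →ₗ[ℤ] Λ) (τ : Λ →ₗ[ℤ] Λ) (c ε : ℤ) (hε : ε * ε = 1)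
    (hα₁ : ∀ i u, α₁ (T i u) = T' i (α₁ u)) (hα₂ : ∀ i u, α₂ (T i u) = T' i (α₂ u))
    (hβ₁ : ∀ i z, β₁ (T' i z) = T i (β₁ z)) (hβ₂ : ∀ i z, β₂ (T' i z) = T i (β₂ z))
    (h11 : ∀ u, β₁ (α₁ u) = c • u) (h22 : ∀ u, β₂ (α₂ u) = c • u)
    (h12 : ∀ u, β₁ (α₂ u) = τ u) (h21 : ∀ u, β₂ (α₁ u) = τ u)
    (i₀ : ι) (e₀ : ℤ) (hcop : IsCoprime (a i₀ - e₀) p)
    (I1 : ∀ u₁ u₂ : Λ, (∃ z, α₁ u₁ + α₂ u₂ = p • z) →
        (∃ v, T i₀ u₁ - e₀ • u₁ = p • v) ∧ (∃ v, T i₀ u₂ - e₀ • u₂ = p • v))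
    (I2 : ∀ w₁ w₂ : Λ, ∃ z : Λ', (∃ v, T i₀ w₁ - e₀ • w₁ - β₁ z = p • v) ∧
        (∃ v, T i₀ w₂ - e₀ • w₂ - β₂ z = p • v))
    (x : Λ) (hx : ¬ ∃ v, x = p • v) (hxT : ∀ i, ∃ v, T i x - a i • x = p • v)
    (hxτ : ∃ v, τ x - (ε * c) • x = p • v) :
    ∃ b : Λ', β₁ b = 0 ∧ β₂ b = 0 ∧ (¬ ∃ v, b = p • v) ∧ ∀ i, ∃ v, T' i b - a i • b = p • v := by
  classical
  -- the operators `e = T i₀ - e₀`
  set eΛ : Module.End ℤ Λ := T i₀ - e₀ • LinearMap.id with heΛ
  set eΛ' : Module.End ℤ Λ' := T' i₀ - e₀ • LinearMap.id with heΛ'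
  set e2 : Module.End ℤ (Λ × Λ) := eΛ.prodMap eΛ with he2
  set β : Λ' →ₗ[ℤ] Λ × Λ := β₁.prod β₂ with hβ
  have hsemi₁ : eΛ.comp β₁ = β₁.comp eΛ' := by
    ext z; simp [heΛ, heΛ', hβ₁]
  have hsemi₂ : eΛ.comp β₂ = β₂.comp eΛ' := by
    ext z; simp [heΛ, heΛ', hβ₂]
  have hsemiβ : e2.comp β = β.comp eΛ' := by
    ext z
    · simpa [he2, hβ] using LinearMap.congr_fun hsemi₁ z
    · simpa [he2, hβ] using LinearMap.congr_fun hsemi₂ z
  have hfst : eΛ.comp (LinearMap.fst ℤ Λ Λ) = (LinearMap.fst ℤ Λ Λ).comp e2 := by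
    ext w <;> simp [he2]
  have hsnd : eΛ.comp (LinearMap.snd ℤ Λ Λ) = (LinearMap.snd ℤ Λ Λ).comp e2 := by
    ext w <;> simp [he2]
  -- determinant trick
  obtain ⟨Q, hmonic, hcoeff, hQ⟩ := core_exists_poly_mem (Ideal.span {p}) (LinearMap.range β) e2
    (by
      rintro _ ⟨z, rfl⟩
      exact ⟨eΛ' z, (LinearMap.congr_fun hsemiβ z).symm⟩)
    (by
      rintro ⟨w₁, w₂⟩
      obtain ⟨z, ⟨v₁, hv₁⟩, ⟨v₂, hv₂⟩⟩ := I2 w₁ w₂
      refine ⟨β z, ⟨z, rfl⟩, ?_⟩
      rw [← coreP_eq_smul_top]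
      refine mem_coreP.2 ⟨(v₁, v₂), ?_⟩
      ext
      · simpa [he2, hβ, heΛ] using hv₁
      · simpa [he2, hβ, heΛ] using hv₂)
  -- the old class `y`
  set y : Λ' := α₁ x - ε • α₂ x with hy
  obtain ⟨v₀, hv₀⟩ := hxτ
  have hβ₂y : β₂ y = p • v₀ := by
    rw [hy, map_sub, map_smul, h21, h22, ← hv₀, mul_smul]
  have hβ₁y : β₁ y = p • (-ε • v₀) := by
    have h1 : β₁ y = (-ε) • (τ x - (ε * c) • x) := by
      rw [hy, map_sub, map_smul, h11, h12, smul_sub, smul_smul]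
      have : -ε * (ε * c) = -c := by rw [← mul_assoc, neg_mul, hε]; ring
      rw [this]
      simp only [neg_smul]
      abel
    rw [h1, hv₀, smul_smul, smul_smul, mul_comm]
  have hyT : ∀ i, T' i y - a i • y ∈ coreP (M := Λ') p := by
    intro i
    obtain ⟨v, hv⟩ := hxT i
    have h1 : T' i y - a i • y = p • (α₁ v - ε • α₂ v) := by
      rw [hy, map_sub, map_smul, ← hα₁, ← hα₂]
      have h2 : T i x = a i • x + p • v := by rw [← hv]; abel
      rw [h2, map_add, map_add, map_smul, map_smul, map_smul, map_smul, smul_sub, smul_sub,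
        smul_add, smul_comm ε p, smul_comm ε (a i)]
      abel
    rw [h1]
    exact coreP_smul_mem p _
  have hy_notin : y ∉ coreP (M := Λ') p := by
    intro hmem
    obtain ⟨z, hz⟩ := mem_coreP.1 hmem
    obtain ⟨⟨v₁, hv₁⟩, -⟩ := I1 x (-ε • x) ⟨z, by rw [← hz, hy, map_smul]; simp [sub_eq_add_neg]⟩
    obtain ⟨v₂, hv₂⟩ := hxT i₀
    apply hx
    have h1 : (a i₀ - e₀) • x ∈ coreP (M := Λ) p := by
      have : (a i₀ - e₀) • x = p • (v₁ - v₂) := by
        rw [smul_sub, ← hv₁, ← hv₂, sub_smul]; abel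
      rw [this]
      exact coreP_smul_mem p _
    exact mem_coreP.1 (coreP_of_coprime hcop h1)
  -- correct `Q(e) y` by a multiple of `p`
  obtain ⟨z', hz'⟩ := hQ (-ε • v₀, v₀)
  refine ⟨aeval eΛ' Q y - p • z', ?_, ?_, ?_, ?_⟩
  · have h1 := core_aeval_semiconj β₁ eΛ' eΛ hsemi₁ Q y
    have h2 := core_aeval_semiconj (LinearMap.fst ℤ Λ Λ) e2 eΛ hfst Q (-ε • v₀, v₀)
    rw [← hz'] at h2
    simp only [LinearMap.fst_apply, hβ, LinearMap.prod_apply, Function.prod] at h2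
    rw [map_sub, map_smul, ← h1, hβ₁y, map_smul, h2, sub_self]
  · have h1 := core_aeval_semiconj β₂ eΛ' eΛ hsemi₂ Q y
    have h2 := core_aeval_semiconj (LinearMap.snd ℤ Λ Λ) e2 eΛ hsnd Q (-ε • v₀, v₀)
    rw [← hz'] at h2
    simp only [LinearMap.snd_apply, hβ, LinearMap.prod_apply, Function.prod] at h2
    rw [map_sub, map_smul, ← h1, hβ₂y, map_smul, h2, sub_self]
  · rintro ⟨v, hv⟩
    apply hy_notin
    have h1 : eΛ' y - (a i₀ - e₀) • y ∈ coreP (M := Λ') p := by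
      have : eΛ' y - (a i₀ - e₀) • y = T' i₀ y - a i₀ • y := by
        simp only [heΛ', LinearMap.sub_apply, LinearMap.smul_apply, LinearMap.id_coe, id_eq,
          sub_smul]
        abel
      rw [this]
      exact hyT i₀
    have h2 := core_aeval_congr eΛ' h1 Q hmonic hcoeff
    have h3 : aeval eΛ' Q y ∈ coreP (M := Λ') p := by
      have : aeval eΛ' Q y = p • (v + z') := by
        rw [smul_add, ← hv]; abel
      rw [this]
      exact coreP_smul_mem p _
    have h4 : (a i₀ - e₀) ^ Q.natDegree • y ∈ coreP (M := Λ') p := by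
      have := (coreP p).sub_mem h3 h2
      rwa [sub_sub_cancel] at this
    exact coreP_of_coprime (hcop.pow_left) h4
  · intro i
    have h1 : eΛ' y - (a i₀ - e₀) • y ∈ coreP (M := Λ') p := by
      have : eΛ' y - (a i₀ - e₀) • y = T' i₀ y - a i₀ • y := by
        simp only [heΛ', LinearMap.sub_apply, LinearMap.smul_apply, LinearMap.id_coe, id_eq,
          sub_smul]
        abel
      rw [this]
      exact hyT i₀
    have h2 := core_aeval_congr eΛ' h1 Q hmonic hcoeff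
    set s : Λ' := aeval eΛ' Q y - (a i₀ - e₀) ^ Q.natDegree • y - p • z' with hs
    have hs_mem : s ∈ coreP (M := Λ') p := (coreP p).sub_mem h2 (coreP_smul_mem p _)
    have hb : aeval eΛ' Q y - p • z' = (a i₀ - e₀) ^ Q.natDegree • y + s := by
      rw [hs]; abel
    rw [hb]
    have h5 : ∀ (m : ℤ) (y s : Λ'), T' i (m • y + s) - a i • (m • y + s) =
        m • (T' i y - a i • y) + (T' i s - a i • s) := by
      intro m y s
      rw [map_add, map_smul, smul_add, smul_sub, smul_comm (a i) m y]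
      abel
    apply mem_coreP.1
    rw [h5]
    exact (coreP p).add_mem ((coreP p).smul_mem _ (hyT i))
      ((coreP p).sub_mem (coreP_map _ hs_mem) ((coreP p).smul_mem _ hs_mem))

end Fermat.Agent.L
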