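import Fermat.Agent.L.Assembly
import Fermat.Agent.L.Degen.Main
import Fermat.Agent.L.PD.Main
import Fermat.Agent.L.NewC.Main
import Fermat.Agent.L.NonEis.Final

/-!
# Cluster L (S41, level raising): everything except Ihara's lemma

Architect: helper41.  `s41_of_ihara`: the frozen statement S41 with Ihara's lemma
`IharaStatement N q' p` as the only remaining hypothesis (DEG, PD, NONEIS, NEW are proved).
-/

set_option autoImplicit false

namespace Fermat.Agent.L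

open WeierstrassCurve WeierstrassCurve.Affine WeierstrassCurve.Affine.Point

theorem s41_of_ihara
    (E : WeierstrassCurve ℚ) [E.IsElliptic] {W : WeierstrassCurve ℤ} (hW : W.IsIntegralModelOf E)
    {p N q' : ℕ} (hp : p.Prime) (hp2 : p ≠ 2) (hN : 0 < N) (hq' : q'.Prime) (hq'N : ¬ q' ∣ N)
    (hq'p : q' ≠ p)
    (hIh : haveI : NeZero q' := ⟨hq'.ne_zero⟩; IharaStatement N q' p)
    (hirr : GaloisRepIsIrreducible (K := AlgebraicClosure ℚ) ℚ E p)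
    (f : CuspForm (CongruenceSubgroup.Gamma0 N) 2) (𝔪 : Ideal (integralClosure ℤ ℂ))
    (hf : f.IsNormalizedEigenform) (hmax : 𝔪.IsMaximal) (hpm : (p : integralClosure ℤ ℂ) ∈ 𝔪)
    (hcong : ∀ ℓ : ℕ, ℓ.Prime → W.IsGoodPrimeFor ℓ → ¬ ℓ ∣ N → ℓ ≠ p →
      ∃ a : integralClosure ℤ ℂ, (a : ℂ) = ModularFormClass.qCoeff f ℓ ∧
        a - ((W.apOfModel ℓ : ℤ) : integralClosure ℤ ℂ) ∈ 𝔪)
    (hLR : ∃ a : integralClosure ℤ ℂ, (a : ℂ) = ModularFormClass.qCoeff f q' ∧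
      a ^ 2 - ((q' : integralClosure ℤ ℂ) + 1) ^ 2 ∈ 𝔪) :
    ∃ (g : CuspForm (CongruenceSubgroup.Gamma0 (N * q')) 2) (𝔪' : Ideal (integralClosure ℤ ℂ)),
      g.IsNormalizedEigenform ∧ 𝔪'.IsMaximal ∧ (p : integralClosure ℤ ℂ) ∈ 𝔪' ∧
      (∀ ℓ : ℕ, ℓ.Prime → W.IsGoodPrimeFor ℓ → ¬ ℓ ∣ N * q' → ℓ ≠ p →
        ∃ a : integralClosure ℤ ℂ, (a : ℂ) = ModularFormClass.qCoeff g ℓ ∧
          a - ((W.apOfModel ℓ : ℤ) : integralClosure ℤ ℂ) ∈ 𝔪') ∧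
      g.IsNewAt q' := by
  have : NeZero q' := ⟨hq'.ne_zero⟩
  exact s41_of_statements hp hp2 hN hq' hq'N hq'p (Fermat.Agent.LDeg.degStatement N q') hIh
    (Fermat.Agent.LPD.pdStatement N q' p) (nonEisStatement E hW hp hp2 hirr)
    (Fermat.Agent.LNewC.newStatement N q') f 𝔪 hf hmax hpm hcong hLR

end Fermat.Agent.L
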